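import Fermat.Statements.S02

set_option autoImplicit false

namespace Fermat.Agent.S02_helper92

/-- Package from coprime data with `a ≡ 3 mod 4`, `b` even. -/
theorem pkg_of_mod {a b c : ℤ} (ha : a ≠ 0) (hb : b ≠ 0) (hc : c ≠ 0) {p : ℕ}
    (pp : p.Prime) (hp5 : 5 ≤ p) (H : a ^ p + b ^ p = c ^ p) (hg : gcd a b = 1)
    (ha4 : a % 4 = 3) (hb2 : b % 2 = 0) : Nonempty FreyPackage := by
  refine ⟨⟨a, b, c, ha, hb, hc, p, pp, hp5, H, hg, ?_, ?_⟩⟩
  · have h : ((a : ℤ) : ZMod 4) = ((3 : ℤ) : ZMod 4) := by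
      rw [ZMod.intCast_eq_intCast_iff']
      simpa using ha4
    simpa using h
  · rw [ZMod.intCast_zmod_eq_zero_iff_dvd]
    exact Int.dvd_of_emod_eq_zero hb2

/-- Package from coprime data with `a` odd, `b` even. -/
theorem pkg_of_odd_even {a b c : ℤ} (ha : a ≠ 0) (hb : b ≠ 0) (hc : c ≠ 0) {p : ℕ}
    (pp : p.Prime) (hp5 : 5 ≤ p) (H : a ^ p + b ^ p = c ^ p) (hg : gcd a b = 1)
    (ha2 : a % 2 = 1) (hb2 : b % 2 = 0) : Nonempty FreyPackage := by
  have hodd : Odd p := pp.odd_of_ne_two (by omega)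
  have h4 : a % 4 = 3 ∨ a % 4 = 1 := by omega
  rcases h4 with h4 | h4
  · exact pkg_of_mod ha hb hc pp hp5 H hg h4 hb2
  · refine pkg_of_mod (a := -a) (b := -b) (c := -c) (neg_ne_zero.2 ha) (neg_ne_zero.2 hb)
      (neg_ne_zero.2 hc) pp hp5 ?_ ?_ (by omega) (by omega)
    · rw [hodd.neg_pow, hodd.neg_pow, hodd.neg_pow, ← H]; ring
    · rw [gcd_neg, neg_gcd]; exact hg

theorem pkg_of_coprime {a b c : ℤ} (ha : a ≠ 0) (hb : b ≠ 0) (hc : c ≠ 0) {p : ℕ}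
    (pp : p.Prime) (hp5 : 5 ≤ p) (H : a ^ p + b ^ p = c ^ p) (hg : gcd a b = 1) :
    Nonempty FreyPackage := by
  have hodd : Odd p := pp.odd_of_ne_two (by omega)
  have hp0 : 0 < p := by omega
  have hpar : ∀ x : ℤ, (x ^ p) % 2 = x % 2 := by
    intro x
    rcases Int.emod_two_eq_zero_or_one x with h | h
    · rw [h]
      have : (2 : ℤ) ∣ x ^ p := dvd_pow (Int.dvd_of_emod_eq_zero h) hp0.ne'
      exact Int.emod_eq_zero_of_dvd this
    · rw [h]
      have hx : Odd x := Int.odd_iff.2 h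
      exact Int.odd_iff.1 hx.pow
  have Hpar : (a % 2 + b % 2) % 2 = c % 2 := by
    have h0 : (a ^ p + b ^ p) % 2 = c ^ p % 2 := by rw [H]
    rw [Int.add_emod, hpar, hpar, hpar] at h0
    exact h0
  rcases Int.emod_two_eq_zero_or_one a with ha2 | ha2 <;>
    rcases Int.emod_two_eq_zero_or_one b with hb2 | hb2
  · exfalso
    have h2 : (2 : ℤ) ∣ gcd a b :=
      dvd_gcd (Int.dvd_of_emod_eq_zero ha2) (Int.dvd_of_emod_eq_zero hb2)
    rw [hg] at h2
    norm_num at h2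
  · refine pkg_of_odd_even hb ha hc pp hp5 (by rw [add_comm]; exact H) ?_ hb2 ha2
    rw [gcd_comm]; exact hg
  · exact pkg_of_odd_even ha hb hc pp hp5 H hg ha2 hb2
  · have hc2 : c % 2 = 0 := by omega
    refine pkg_of_odd_even (a := a) (b := -c) (c := -b) ha (neg_ne_zero.2 hc) (neg_ne_zero.2 hb)
      pp hp5 ?_ ?_ ha2 (by omega)
    · rw [hodd.neg_pow, hodd.neg_pow, ← H]; ring
    · rw [gcd_neg, ← FreyPackage.gcdab_eq_gcdac hp0 H]; exact hg

theorem pkg_of_counterexample (a b c : ℤ) (ha : a ≠ 0) (hb : b ≠ 0) (hc : c ≠ 0) (p : ℕ)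
    (pp : p.Prime) (hp5 : 5 ≤ p) (H : a ^ p + b ^ p = c ^ p) : Nonempty FreyPackage := by
  have hp0 : p ≠ 0 := by omega
  have hd : 0 < Int.gcd a b := Int.gcd_pos_of_ne_zero_left b ha
  obtain ⟨a1, b1, hg1, ha1, hb1⟩ := Int.exists_gcd_one hd
  set d : ℤ := (Int.gcd a b : ℤ) with hd_def
  have hd0 : d ≠ 0 := by
    have h0 : (0 : ℤ) < d := by rw [hd_def]; exact_mod_cast hd
    exact h0.ne'
  have hdc : d ∣ c := by
    rw [← Int.pow_dvd_pow_iff hp0, ← H]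
    apply dvd_add <;> rw [Int.pow_dvd_pow_iff hp0]
    · exact Int.gcd_dvd_left a b
    · exact Int.gcd_dvd_right a b
  obtain ⟨c1, hc1⟩ := hdc
  have ha1' : a1 ≠ 0 := by
    rintro rfl; apply ha; rw [ha1]; simp
  have hb1' : b1 ≠ 0 := by
    rintro rfl; apply hb; rw [hb1]; simp
  have hc1' : c1 ≠ 0 := by
    rintro rfl; apply hc; rw [hc1]; simp
  have H1 : a1 ^ p + b1 ^ p = c1 ^ p := by
    have hdp : d ^ p ≠ 0 := pow_ne_zero _ hd0
    apply mul_left_cancel₀ hdp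
    have : a ^ p + b ^ p = c ^ p := H
    rw [ha1, hb1, hc1] at this
    rw [mul_add, ← mul_pow, ← mul_pow, ← mul_pow]
    rw [mul_comm d a1, mul_comm d b1]
    exact this
  refine pkg_of_coprime ha1' hb1' hc1' pp hp5 H1 ?_
  rw [← Int.coe_gcd, hg1]; rfl

end Fermat.Agent.S02_helper92
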